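import Fermat.Agent.LT.T3.M.Spec

/-!
# Row LT, tower T3, station T3.18M, leaf M.2 `M.FtPureC` (helper286)

OFF-MAIN.  `ftCrd` of a pure tensor: the finite sum over `(ℤ²)^{ι₁}` of a product of finitely
supported factors is the product of the sums (`Finset.prod_univ_sum` on `Fintype.piFinset` of
the supports), and the integral over `(ℝ²)^{ι₂}` of a product is the product of the integrals
(`integral_fintype_prod_volume_eq_prod`).
-/

set_option autoImplicit false

open MeasureTheory

noncomputable section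

namespace Fermat.Agent.LT.T3.M.H286

open Fermat.Agent.LT.T3.AS Fermat.Agent.LT.T3.M

/-- The `finsum` over a finite product of types of a product of finitely supported factors. -/
theorem finsum_pi_prod286 {ι : Type} [Fintype ι] {α : Type} (g : ι → α → ℂ)
    (hg : ∀ i, (Function.support (g i)).Finite) :
    ∑ᶠ m : ι → α, ∏ i, g i (m i) = ∏ i, ∑ᶠ a : α, g i a := by
  classical
  have h1 : ∀ i, ∑ᶠ a : α, g i a = ∑ a ∈ (hg i).toFinset, g i a := fun i =>
    finsum_eq_sum_of_support_subset _ (by simp)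
  have h2 : ∑ᶠ m : ι → α, ∏ i, g i (m i)
      = ∑ m ∈ Fintype.piFinset (fun i => (hg i).toFinset), ∏ i, g i (m i) := by
    refine finsum_eq_sum_of_support_subset _ ?_
    intro m hm
    rw [Function.mem_support] at hm
    rw [Finset.mem_coe, Fintype.mem_piFinset]
    intro i
    rw [Set.Finite.mem_toFinset, Function.mem_support]
    intro h0
    exact hm (Finset.prod_eq_zero (Finset.mem_univ i) h0)
  rw [h2, Finset.prod_congr rfl (fun i _ => h1 i), Finset.prod_univ_sum]

/-- **Leaf M.2 `M.FtPureC`.** -/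
theorem ftPureC286 : FtPureC := by
  intro ι₁ ι₂ _ _ A β hA z₁ z₂
  unfold ftCrd laurent
  have hint : ∀ m : ι₁ → ℤ × ℤ, (∫ x : ι₂ → ℝ × ℝ, pureCrd A β (m, x))
      = (∏ i, A i (m i)) * ∏ w, ∫ x : ℝ × ℝ, β w x := by
    intro m
    have e : (fun x : ι₂ → ℝ × ℝ => pureCrd A β (m, x))
        = fun x => (∏ i, A i (m i)) * ∏ w, β w (x w) := rfl
    rw [e, integral_const_mul, integral_fintype_prod_volume_eq_prod]
  have hsupp : ∀ i, (Function.support
      (fun m : ℤ × ℤ => A i m * z₁ i ^ m.1 * z₂ i ^ m.2)).Finite := by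
    intro i
    refine (hA i).subset ?_
    intro m hm
    rw [Function.mem_support] at hm ⊢
    intro h0
    apply hm
    rw [h0, zero_mul, zero_mul]
  rw [← finsum_pi_prod286 (fun i (m : ℤ × ℤ) => A i m * z₁ i ^ m.1 * z₂ i ^ m.2) hsupp,
    finsum_mul]
  refine finsum_congr fun m => ?_
  have e2 : ∀ i, A i (m i) * (z₁ i ^ (m i).1 * z₂ i ^ (m i).2)
      = A i (m i) * z₁ i ^ (m i).1 * z₂ i ^ (m i).2 := fun i => (mul_assoc _ _ _).symm
  rw [hint m, mul_right_comm, ← Finset.prod_mul_distrib,
    Finset.prod_congr rfl (fun i _ => e2 i)]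

end Fermat.Agent.LT.T3.M.H286

end
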